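import Fermat.Agent.PicZ.Pic0

/-!
# Hecke polynomials on `p`-torsion classes in characteristic `p`, small `p`
-/

set_option autoImplicit false
set_option linter.unusedSectionVars false
set_option linter.style.haveILetI false
set_option synthInstance.maxHeartbeats 400000

noncomputable section

namespace Fermat.Agent.AtH

open Polynomial AlgebraicCurve Fermat.Agent.Curves Module IntermediateField ModularCurve
open Fermat.Agent.GoodRed Fermat.Agent.PicFlat Fermat.Agent.Carayol Fermat.Agent.SSMod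
open Fermat.Agent.AnJac Fermat.Agent.MazurP IsLocalRing Fermat.Agent.HeckeQ Fermat.Agent.PicZ
open Fermat.Agent.GenusX0 (je transcendental_je thetaFun thetaFun_coeff thetaFun_mul)

local notation "ℒ" => LaurentSeries
local notation "Qbar" => AlgebraicClosure ℚ

section Main

variable {q : ℕ} [hq : Fact q.Prime] {A : ValuationSubring Qbar} [CharP (ResidueField A) q]
  {M : ℕ} [NeZero M] {S : Set ℕ}

/-- **PIC0**: Hecke polynomials killing the lattice of level `M` kill the `q`-torsion classes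
of the function field of level `M` in characteristic `q`. -/
theorem op_eq_pow_odd (hk : ∀ i : JS S, haveI : NeZero i.1 := ⟨i.2.1.ne_zero⟩;
      HasPrim (ResidueField A) i.1)
    (hq2 : q = 2 → 3 ∣ M) (hq3 : q = 3 → 2 ∣ M) (hA : A.LiesOverPrime q) (hqM : ¬ q ∣ M) (hqS : q ∈ S)
    (hSM : ∀ i : JS S, ¬ i.1 ∣ M) (P : FreeAlgebra ℤ (JS S)) (hP : lat M P = 0)
    {u : (ℒ (ResidueField A))ˣ}
    (hum : (u : ℒ (ResidueField A)) ∈ modularFunctionFieldFullC (ResidueField A) M)
    (hu : ∀ Q : Place (ResidueField A) (modularFunctionFieldFullC (ResidueField A) M),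
      (q : ℤ) ∣ Q.ord ⟨_, hum⟩) :
    ∃ g : modularFunctionFieldFullC (ResidueField A) M, g ≠ 0 ∧
      (op hk P u : ℒ (ResidueField A)) =
        (g : ℒ (ResidueField A)) ^ q := by
  have hNK : (M : Qbar) ≠ 0 := by exact_mod_cast NeZero.ne M
  have hNκ : (M : ResidueField A) ≠ 0 := by
    rw [Ne, CharP.cast_eq_zero_iff (ResidueField A) q]; exact hqM
  obtain ⟨ι⟩ := exists_emb_Qbar
  haveI := isFunctionField_fullC Qbar M hNK
  haveI := isFunctionField_fullC (ResidueField A) M hNκ
  obtain ⟨h1, h2⟩ := exists_jGood hq.out hA M hq2 hq3 hNK hNκ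
  obtain ⟨Kc, hK⟩ := exists_isCan (N := M) ι
  obtain ⟨δ, hδ⟩ := exists_DJ residue_surjective hNK hNκ hK
  set v : modularFunctionFieldFullC (ResidueField A) M := ⟨_, hum⟩ with hv
  have hv0 : v ≠ 0 := fun h => u.ne_zero (congrArg Subtype.val h)
  have hw := dlog_mem h1 h2 (p := q) hδ hK hv0 hu
  have hw2 := opL_eq_zero (p := q) h1 h2 (rankOne_Qbar hq.out hA) ι hK hSM hP hw
  have e1 : (((δ v / v : modularFunctionFieldFullC (ResidueField A) M) : ℒ (ResidueField A)) *
      thetaFun (jqModC (ResidueField A))) = dl (u : ℒ (ResidueField A)) := by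
    have e2 : ((δ v / v : modularFunctionFieldFullC (ResidueField A) M) : ℒ (ResidueField A)) =
      (δ v : ℒ (ResidueField A)) / (u : ℒ (ResidueField A)) := rfl
    rw [e2, hδ.spec, dl, th_eq_thetaFun]
    rw [div_mul_eq_mul_div, div_mul_cancel₀ _ (theta_j_ne _)]
  rw [e1] at hw2
  have hk0 : ∀ i : JS S, (i.1 : ResidueField A) ≠ 0 := by
    intro i hi
    rw [CharP.cast_eq_zero_iff (ResidueField A) q] at hi
    rcases (Nat.dvd_prime i.2.1).mp hi with h | h
    · exact hq.out.one_lt.ne' h
    · exact i.2.2 (h ▸ hqS)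
  rw [← dl_op hk hk0 P u, dl, div_eq_zero_iff] at hw2
  have hth := hw2.resolve_right (Units.ne_zero _)
  have hmem := op_mem_κ (residue A) (hasPrim_field) hk (hasPrim_ring A)
    residue_surjective hk0 hSM hNκ P hum
  obtain ⟨y, hy⟩ := eq_pow_of_th (q := q) hNκ ⟨_, hmem⟩ hth
  have h3 := congrArg Subtype.val hy
  refine ⟨y, ?_, h3⟩
  intro hy0
  rw [hy0, zero_pow hq.out.ne_zero] at h3
  exact Units.ne_zero (op hk P u) h3

end Main

end Fermat.Agent.AtH
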