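import Fermat.Agent.AtG.Main
import Fermat.Agent.AtH.Inst
import Fermat.Agent.AtH.Pic

/-!
# Inertia at `p` on the eigenspace, small `p`
-/

set_option autoImplicit false
set_option linter.unusedSectionVars false
set_option linter.style.haveILetI false
set_option linter.unusedVariables false
set_option synthInstance.maxHeartbeats 400000

noncomputable section

namespace Fermat.Agent.AtH

open ModularCurve Fermat.Agent.GoodRed Fermat.Agent.Models Fermat.Agent.ModFun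
open Fermat.Agent.Curves AlgebraicCurve IsLocalRing Fermat.Agent.SSMod
open Fermat.Agent.HeckeQ Fermat.Agent.Mono Fermat.Agent.MazurP Fermat.Agent.AtP
open Fermat.Agent.AnJac Fermat.Agent.GalRep Fermat.Agent.S43Glue CuspForm Matrix
open Fermat.Agent.AnJacH (Nq coe_Nq UmN)
open Fermat.Agent.AtG Fermat.Agent.MazurP3

local notation "ℒ" => LaurentSeries
local notation "Qbar" => AlgebraicClosure ℚ
local notation "GQ" => Qbar ≃ₐ[ℚ] Qbar

theorem mem_of_pow_mem'' {k E : Type*} [Field k] [Field E] [Algebra k E] (Q : Place k E) {x : E}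
    {n : ℕ} (hn : n ≠ 0) (h : x ^ n ∈ Q.toValuationSubring) : x ∈ Q.toValuationSubring := by
  rw [← ValuationSubring.valuation_le_one_iff] at h ⊢
  rw [map_pow] at h
  exact (pow_le_one_iff hn).1 h

section Act

variable {A : ValuationSubring Qbar} {q M : ℕ} [hq : Fact q.Prime] [NeZero q] [NeZero M]
  [NeZero (q * M)] {S : Set ℕ} {hSN : ∀ i : JS S, ¬ i.1 ∣ q * M}
  {θ : heckeAlgebra (q * M) 2 S →+* ZMod q}

attribute [-instance] DivisionRing.toRatAlgebra in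
set_option maxHeartbeats 1600000 in
/-- **Inertia at `p` acts on the eigenspace through the cyclotomic character.** -/
theorem act_eq_smul_odd (hq5 : 5 ≤ q ∨ (q = 3 ∧ nuThree M = 0))
    (hJ : JLift (residue A) M) (hA : A.LiesOverPrime q)
    (hqM : Nat.Coprime q M) (hqS : q ∈ S)
    [CharP (ResidueField A) q] [Algebra (ZMod q) (ResidueField A)]
    [Algebra.IsAlgebraic (ZMod q) (ResidueField A)]
    [IsFunctionField (ResidueField A) (modularFunctionFieldFullC (ResidueField A) M)]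
    (hpic : PicH (ResidueField A) q M hqS)
    (heis : ∃ (r : ℕ) (hr : r.Prime) (hrS : r ∉ S),
      θ (hkA (q * M) hSN (FreeAlgebra.ι ℤ ⟨r, hr, hrS⟩)) ≠ 1 + (r : ZMod q))
    {P : FreeAlgebra ℤ (JS S)} (hP : lat M P = 0) (hP1 : θ (hkA (q * M) hSN P) = 1)
    {Γ : Subgroup GQ} (hΓI : Γ ≤ A.inertiaSubgroupIn ℚ)
    (hfin : (Γ.subgroupOf (A.inertiaSubgroupIn ℚ)).FiniteIndex)
    (hFU : ∀ b : Qbar, b ≠ 0 → (∀ σ ∈ A.inertiaSubgroupIn ℚ, σ (b ^ q) = b ^ q) →
      (∀ σ ∈ Γ, σ b = b) → ∃ l : ℤ, A.valuation (b * (q : Qbar) ^ l) = 1)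
    {x : Fin (rk (q * M)) → ZMod q} (hx : x ∈ WW hSN θ)
    (hΓx : ∀ σ ∈ Γ, (KQ (q * M)).M (bL (q * M)) (pne q) σ *ᵥ x = x)
    {τ : GQ} (hτ : τ ∈ A.inertiaSubgroupIn ℚ) {a : ℕ}
    (ha : ∀ ζ : Qbar, ζ ^ q = 1 → τ ζ = ζ ^ a) :
    (KQ (q * M)).M (bL (q * M)) (pne q) τ *ᵥ x = (a : ZMod q) • x := by
  haveI : Algebra.IsAlgebraic ℚ Qbar := AlgebraicClosure.isAlgebraic ℚ
  haveI : @Algebra.IsAlgebraic ℤ Qbar _ _ (Ring.toIntAlgebra Qbar) := algebraic_int_Qbar
  have hrk : RankOne (residue A) := @rankOne_of_liesOver Qbar _ A _ algebraic_int_Qbar q hq.out hA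
  haveI := isFunctionField_fullC Qbar (q * M) (by exact_mod_cast NeZero.ne (q * M))
  have hE := (resField_eq (q := q) (π := residue A) residue_surjective ιQ hqM hrk).symm
  have hqM' : ¬ q ∣ M := (Nat.Prime.coprime_iff_not_dvd hq.out).1 hqM
  have hSM : ∀ i : JS S, ¬ i.1 ∣ M := fun i h => hSN i (h.mul_left q)
  haveI : HasPrim Qbar q := hasPrim_K
  haveI : HasPrim A q := hasPrim_val' A
  obtain ⟨ζ, hζ⟩ := exists_zeta q
  have hU : ∀ u : modularFunctionFieldFullC Qbar (q * M),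
      ((FU ιQ (dvd_mul_right q M) hζ u : modularFunctionFieldFullC Qbar (q * M)) : ℒ Qbar) =
        hW q (u : ℒ Qbar) := fun u => by
    rw [← AnJacH.heckeW_eq_hW hζ]; rfl
  -- the class
  obtain ⟨u, φ, hu, hφ⟩ := (KQ (q * M)).exists_cls (bL (q * M)) (pne q) x
  have hu0 := (KQ (q * M)).ne_zero hu
  have hC : (KQ (q * M)).Cls (bL (q * M)) q u x := ⟨φ, hu, hφ⟩
  have hdvd : ∀ P : Place Qbar (modularFunctionFieldFullC Qbar (q * M)), (q : ℤ) ∣ P.ord u :=
    fun v => ClX.dvd_ord ιQ hu v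
  have hcoe : ∀ (σ : GQ) (a : modularFunctionFieldFullC Qbar (q * M)),
      (KQ (q * M)).act σ a = galF (q * M) (σ : Qbar ≃+* Qbar) a := fun σ a => Subtype.ext rfl
  have hΓ : ∀ σ ∈ Γ, ∃ f : modularFunctionFieldFullC Qbar (q * M), f ≠ 0 ∧
      galF (q * M) (σ : Qbar ≃+* Qbar) u = u * f ^ q := by
    intro σ hσ
    have h1 := hC.act (pne q) σ
    rw [hΓx σ hσ] at h1
    obtain ⟨g, hg0, hg⟩ := h1.exists_pow (pne q) hC
    exact ⟨g, hg0, by rw [← hcoe, hg]⟩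
  -- `U² = 1`
  obtain ⟨g1, hg1, e1⟩ := exists_UU hqM hP hP1 hx hC hζ
  obtain ⟨Wm, hWm⟩ := AnJacH.exists_alMat (q := q) (M := M) hqM (pne q)
  obtain ⟨g2, hg2, e2⟩ := exists_UU hqM hP hP1 (W_stable hqM hWm hx) (hWm u x hC) hζ
  -- non-Eisenstein
  have hso : ∀ (i : Bool) (𝔭 : Place (ResidueField A) (modularFunctionFieldFullC
      (ResidueField A) M)), (q : ℤ) ∣ so (two residue_surjective ιQ hqM _ hE i) 𝔭 u := by
    obtain ⟨r, hr, hrS, hne⟩ := heis
    haveI : NeZero r := ⟨hr.ne_zero⟩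
    haveI : Fact r.Prime := ⟨hr⟩
    haveI : HasPrim Qbar r := hasPrim_K
    haveI : HasPrim A r := hasPrim_val' A
    have hrN : ¬ r ∣ q * M := hSN ⟨r, hr, hrS⟩
    have hrκ : (r : ResidueField A) ≠ 0 := by
      rw [Ne, CharP.cast_eq_zero_iff _ q]
      intro h1
      exact hrN (((Nat.prime_dvd_prime_iff_eq hq.out hr).mp h1 ▸ dvd_refl _ : r ∣ q).mul_right M)
    haveI : HasPrim (ResidueField A) r := hasPrim_alg hr.ne_zero hrκ
    haveI : NeZero q := ⟨pne q⟩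
    set b : ZMod q := θ (hkA (q * M) hSN (FreeAlgebra.ι ℤ ⟨r, hr, hrS⟩)) with hb
    have h1 := isMat_HV hSN ⟨r, hr, hrS⟩ _ _ hC
    rw [hx ⟨r, hr, hrS⟩, ← hb] at h1
    have h2 := hC.npow (pne q) b.val
    have h3 : b.val • x = b • x := by
      ext i
      rw [Pi.smul_apply, Pi.smul_apply, nsmul_eq_mul, ZMod.natCast_zmod_val, smul_eq_mul]
    rw [h3] at h2
    obtain ⟨g, hg0, hg⟩ := h1.exists_pow (pne q) h2
    have hne' : ¬ (q : ℤ) ∣ (r + 1 : ℤ) - b.val := by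
      intro h
      apply hne
      have h4 : (((r + 1 : ℤ) - (b.val : ℤ) : ℤ) : ZMod q) = 0 :=
        (ZMod.intCast_zmod_eq_zero_iff_dvd _ _).mpr h
      push_cast at h4
      rw [ZMod.natCast_zmod_val] at h4
      linear_combination -h4
    rcases hq5 with hq5 | ⟨hq3, h3M⟩
    · have hsl := AtS.slopes_at_p hA hqM ιQ hE hrk hJ hU hΓI hfin hFU hu0 hg1 hg2 hΓ e1 e2 hdvd
      exact slope_zero_of residue_surjective ιQ hqM hE hA hrk hJ hr hrN hq.out hq5 hu0 hg0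
        (x := hMf hSN ⟨r, hr, hrS⟩ u) (a := b.val) rfl hg hne' hdvd hsl
    · have hc := cross (hπ := residue_surjective (R := A)) ιQ hqM hE hA hrk hJ
      obtain ⟨lam, hsl⟩ := slopes_at_p_mul hA hqM ιQ hE hrk hJ hU hΓI hfin hFU hu0 hg1 hg2 hΓ
        e1 e2 hdvd (e := 3) (by norm_num) (by
          rintro 𝔮 ⟨M', 𝔯, h1, -⟩
          refine three_dvd_g (hπ := residue_surjective (R := A)) ιQ hqM hE hJ h3M 𝔮 ?_
          have h2 := h1.1
          rw [hc.r_t] at h2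
          exact mem_of_pow_mem'' _ (by have := hq.out.pos; omega) h2)
      subst hq3
      exact slope_zero_three residue_surjective ιQ hqM hE hA hrk hJ hr hrN h3M hu0 hg0
        (x := hMf hSN ⟨r, hr, hrS⟩ u) (a := b.val) rfl hg hne' hdvd
        ⟨lam, fun 𝔮 h𝔮 => by
          have := hsl 𝔮 h𝔮
          norm_num at this
          exact this⟩
  -- residues
  have huL : (u : ℒ Qbar) ≠ 0 := fun h => hu0 (Subtype.ext h)
  set uU : (ℒ Qbar)ˣ := Units.mk0 (u : ℒ Qbar) huL with huU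
  have hum : (uU : ℒ Qbar) ∈ modularFunctionFieldFullC Qbar (q * M) := u.2
  obtain ⟨hm', hcl'⟩ := cl_op hasPrim_field hSN ιQ (pne q) P
    (show ClU (q * M) ιQ q φ uU from ⟨u.2, hu⟩)
  have h2 : (KQ (q * M)).Cls (bL (q * M)) q ⟨(op hasPrim_field P uU : ℒ Qbar), hm'⟩ x := by
    refine ⟨_, hcl', ?_⟩
    rw [← HV_mulVec, hφ, WW_all hx, hP1, one_smul]
  obtain ⟨g, hg0, hg⟩ := h2.exists_pow (pne q) hC
  have hg0' : (g : ℒ Qbar) ≠ 0 := fun h => hg0 (Subtype.ext h)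
  have hop : op hasPrim_field P uU = uU * (Units.mk0 (g : ℒ Qbar) hg0') ^ q := by
    apply Units.ext
    rw [Units.val_mul, Units.val_pow_eq_pow_val, Units.val_mk0]
    exact congrArg Subtype.val hg
  have r1 := resPow_gen ιQ hqM hE hqS (pne q) P (hpic P hP) hum (f := Units.mk0 _ hg0') g.2 hop
    (hso true)
  have r2 := resPow_gen_false ιQ hqM hE hqS hSN (pne q) P (hpic P hP) hum
    (f := Units.mk0 _ hg0') g.2 hop (hso false)
  obtain ⟨f, hf⟩ := core_p residue_surjective ιQ hqM hE hA hrk hJ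
    (actsAt_inertia hτ) hU ha hu0 e1 e2 r1 r2 hdvd
  -- conclusion
  have h5 := KSys.Cls.div (pne q) (hC.act (pne q) τ) (KSys.Cls.npow (pne q) hC a)
  have e : (KQ (q * M)).act τ u / u ^ a = f ^ q := by rw [hcoe]; exact hf
  have hf0 : f ≠ 0 := by
    rintro rfl
    rw [zero_pow (pne q)] at e
    exact (div_ne_zero ((map_ne_zero _).mpr hu0) (pow_ne_zero _ hu0)) e
  rw [e] at h5
  have h6 := h5.unique (pne q) (KSys.cls_pow (pne q) hf0)
  rw [sub_eq_zero.mp h6]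
  ext i
  rw [Pi.smul_apply, Pi.smul_apply, nsmul_eq_mul, smul_eq_mul]

end Act

end Fermat.Agent.AtH
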