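import Fermat.Agent.AtS.Final

/-!
# Slopes of functions which are almost rational on both components
-/

set_option autoImplicit false
set_option linter.unusedSectionVars false
set_option linter.style.haveILetI false

noncomputable section

namespace Fermat.Agent.AtH

open Fermat.Agent.AtS AlgebraicCurve Fermat.Agent.Curves Polynomial Fermat.Agent.Models Fermat.Agent.Mono
open Fermat.Agent.MazurP (nodes)

variable {k κ : Type*} [Field k] [Field κ] {B : Res k κ} {F : Type*} [Field F] [Algebra k F]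
  {𝓕 : Type*} [Field 𝓕] [Algebra κ 𝓕] {C : Bool → Comp B F 𝓕}
  [IsAlgClosed k] [IsAlgClosed κ] [IsFunctionField k F] [IsFunctionField κ 𝓕]
  {t : F} {q : ℕ} {a b : F} {j : 𝓕} {R : Subfield F}
    {φ : 𝓕 ≃+* 𝓕} {g d : F} {q₀ : k}

theorem exists_slopeR_mul (h : Cross C t q a b j) (hl : CrossLift C t q j R φ g d q₀) {n : ℕ}
    (hn : n ≠ 0) {u : F} (hu0 : u ≠ 0) (hu : ∀ P : Place k F, (n : ℤ) ∣ P.ord u)
    {α : k} (hα : α ∈ B.O) (hα0 : α ≠ 0) (hαr : B.r α = 0)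
    (hval : ∀ b : k, b ≠ 0 →
      (∀ (σ : F ≃+* F) (σ₀ : k ≃+* k) (s : Place k F ≃ Place k F), Inertial C σ σ₀ s →
        Inertial C σ.symm σ₀.symm s.symm → σ t = t → (∀ y ∈ R, σ y = y) →
        (∀ i, ∃ c : k, c ≠ 0 ∧ Cl (C i) α (algebraMap k F c * (σ u / u))) →
        ClB B α ((σ₀ b / b) ^ n)) →
      (∀ (σ : F ≃+* F) (σ₀ : k ≃+* k) (s : Place k F ≃ Place k F), Inertial C σ σ₀ s →
        Inertial C σ.symm σ₀.symm s.symm → σ t = t → (∀ y ∈ R, σ y = y) → σ u = u →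
        σ₀ b = b) →
      ∀ m : ℤ, B.r (b ^ n * q₀ ^ m) ≠ 0 → (n : ℤ) ∣ m) {e : ℤ}
    (he : ∀ 𝔭 ∈ nodes C t, e ∣ 𝔭.ord ((C true).r g)) :
    ∃ lam : ℤ, ∀ 𝔭 ∈ nodes C t,
      e * (n : ℤ) ∣ 12 * so (C true) 𝔭 u - lam * 𝔭.ord ((C true).r g) := by
  by_cases hne : (nodes C t).Nonempty
  swap
  · exact ⟨0, fun 𝔭 h𝔭 => absurd ⟨𝔭, h𝔭⟩ hne⟩
  obtain ⟨𝔭₀, h𝔭₀⟩ := hne
  have hdat : ∀ 𝔭 ∈ nodes C t, ∃ (M : Ideal (chart C t)) (𝔮 : Place κ 𝓕) (Y : F) (m : ℕ), Y ∈ R ∧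
      0 < m ∧
      (m : ℤ) * 𝔭.ord ((C true).r g) = 12 ∧ IsNode C t M true false 𝔭 𝔮 Y (q₀ ^ m) := by
    rintro 𝔭 ⟨M, 𝔮, h1, h2⟩
    obtain ⟨Y, m, hYR, hm0, h3, h4⟩ := exists_isNodeR h hl h1 h2
    exact ⟨M, 𝔮, Y, m, hYR, hm0, h3, h4⟩
  obtain ⟨M₀, 𝔮₀, Y₀, m₀, hY₀R, hm₀, hmo₀, hN₀⟩ := hdat 𝔭₀ h𝔭₀
  refine ⟨m₀ * so (C true) 𝔭₀ u, fun 𝔭 h𝔭 => ?_⟩
  set lam : ℤ := m₀ * so (C true) 𝔭₀ u with hlam
  obtain ⟨M, 𝔮, Y, m, hYR, hm, hmo, hNd⟩ := hdat 𝔭 h𝔭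
  obtain ⟨b, hb0, hb1, hb1', hb2⟩ := pair h.rank h.commens h.incomp h.good h.surj hNd hN₀ hn
    hu0 hu hα hα0 hαr
  have h3 := hval b hb0 (fun σ σ₀ s hi hi' hσt hσR => hb1 σ σ₀ s hi hi' hσt (hσR Y hYR)
      (hσR Y₀ hY₀R))
    (fun σ σ₀ s hi hi' hσt hσR => hb1' σ σ₀ s hi hi' hσt (hσR Y hYR) (hσR Y₀ hY₀R))
    (m * (-so (C false) 𝔮 u) - m₀ * (-so (C false) 𝔮₀ u)) (by
    convert hb2 using 2
    rw [zpow_sub₀ hl.q_ne, zpow_mul, zpow_mul, zpow_natCast, zpow_natCast, mul_div_assoc])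
  have h4 := so_add_dvd h.rank h.commens h.incomp h.good h.surj hNd hn hu0 hu
  have h5 := so_add_dvd h.rank h.commens h.incomp h.good h.surj hN₀ hn hu0 hu
  have h6 : (n : ℤ) ∣ m * so (C true) 𝔭 u - lam := by
    have e1 : m * so (C true) 𝔭 u - lam = (m : ℤ) * (so (C true) 𝔭 u + so (C false) 𝔮 u) -
        m₀ * (so (C true) 𝔭₀ u + so (C false) 𝔮₀ u) +
        (m * (-so (C false) 𝔮 u) - m₀ * (-so (C false) 𝔮₀ u)) := by rw [hlam]; ring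
    rw [e1]
    exact dvd_add (dvd_sub (h4.mul_left _) (h5.mul_left _)) h3
  have e2 : 12 * so (C true) 𝔭 u - lam * 𝔭.ord ((C true).r g) =
      𝔭.ord ((C true).r g) * (m * so (C true) 𝔭 u - lam) := by
    rw [← hmo]
    ring
  rw [e2]
  exact mul_dvd_mul (he 𝔭 h𝔭) h6

/-- multiplication by `n`-th powers does not change the conclusion -/
theorem slope_congr_mul {e : ℤ} (he : e ∣ 12) {n : ℕ} {u f : F} (hu0 : u ≠ 0) (hf : f ≠ 0)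
    (h : ∃ lam : ℤ, ∀ 𝔭 ∈ nodes C t,
      e * (n : ℤ) ∣ 12 * so (C true) 𝔭 (u / f ^ n) - lam * 𝔭.ord ((C true).r g)) :
    ∃ lam : ℤ, ∀ 𝔭 ∈ nodes C t,
      e * (n : ℤ) ∣ 12 * so (C true) 𝔭 u - lam * 𝔭.ord ((C true).r g) := by
  obtain ⟨lam, hl⟩ := h
  refine ⟨lam, fun 𝔭 h𝔭 => ?_⟩
  have h1 := hl 𝔭 h𝔭
  rw [so_div (C true) 𝔭 hu0 (pow_ne_zero _ hf), so_pow] at h1
  have e1 : 12 * so (C true) 𝔭 u - lam * 𝔭.ord ((C true).r g) =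
      (12 * (so (C true) 𝔭 u - n * so (C true) 𝔭 f) - lam * 𝔭.ord ((C true).r g)) +
        12 * n * so (C true) 𝔭 f := by ring
  rw [e1]
  exact dvd_add h1 ((mul_dvd_mul_right he _).mul_right _)

end Fermat.Agent.AtH
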